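/-
GATE-Z (Mazur key step, S15) / node (DEG) of helper20 LEAD-3 (board 5852) — helper45.

The two relative degrees consumed by `GZ/Top/S15TopB.lean` (`s15_of_nodes_B`):

* `hdeg3 : relfinrank (FN p) (FN (3 * p)) = 4`   (`3 ∤ p`)
* `hdeg2 : relfinrank (FN p) (FN (2 * p)) = 3`   (`2 ∤ p`)

from the tower law `ψ(N) · [F_{N'} : F_N] = ψ(N')` (`GJ/J1/DescDegree`, itself from T24's M9),
multiplicativity of the Dedekind `ψ`-function and `ψ(q) = q + 1`.
-/
import Fermat.Agent.GJ.J1.DescDegree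

set_option autoImplicit false

noncomputable section

open IntermediateField ModularCurve

namespace Fermat.Agent.GZ.Deg

open Fermat.Agent.GJ.J1.Desc

/-- `ψ(q) = q + 1` for a prime `q`. -/
theorem dedekindPsi_prime {q : ℕ} (hq : q.Prime) : dedekindPsi q = q + 1 := by
  have := Fermat.Agent.S20_helper27.dedekindPsi_prime_pow hq (k := 1) one_pos
  simpa using this

/-- **general form**: `[F_{qN} : F_N] = q + 1` for a prime `q ∤ N`. -/
theorem relfinrank_prime_mul {q : ℕ} (hq : q.Prime) (N : ℕ) [NeZero N] [NeZero (q * N)]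
    (hqN : ¬ q ∣ N) :
    relfinrank (modularFunctionFieldBar N) (modularFunctionFieldBar (q * N)) = q + 1 := by
  have h := dedekindPsi_mul_relfinrank (N := N) (N' := q * N) (Dvd.intro_left q rfl)
  have hcop : Nat.Coprime q N := (Nat.Prime.coprime_iff_not_dvd hq).mpr hqN
  rw [Fermat.Agent.S20_helper27.dedekindPsi_mul hcop, dedekindPsi_prime hq,
    mul_comm (q + 1)] at h
  exact Nat.eq_of_mul_eq_mul_left (dedekindPsi_pos N) h

/-- **(DEG), level `3p`**: `[F_{3p} : F_p] = 4` as soon as `3 ∤ p`.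
(binder `hdeg3` of `Fermat.Agent.GZ.Top.s15_of_nodes_B`; any `NeZero (3 * p)` instance) -/
theorem relfinrank_three_mul (p : ℕ) [NeZero p] [NeZero (3 * p)] (h3 : ¬ 3 ∣ p) :
    relfinrank (modularFunctionFieldBar p) (modularFunctionFieldBar (3 * p)) = 4 :=
  relfinrank_prime_mul Nat.prime_three p h3

/-- **(DEG), level `2p`**: `[F_{2p} : F_p] = 3` as soon as `2 ∤ p`.
(binder `hdeg2` of `Fermat.Agent.GZ.Top.s15_of_nodes_B`; any `NeZero (2 * p)` instance) -/
theorem relfinrank_two_mul (p : ℕ) [NeZero p] [NeZero (2 * p)] (h2 : ¬ 2 ∣ p) :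
    relfinrank (modularFunctionFieldBar p) (modularFunctionFieldBar (2 * p)) = 3 :=
  relfinrank_prime_mul Nat.prime_two p h2

/-- both degrees at a prime `p ∉ {2, 3}`. -/
theorem relfinrank_three_two {p : ℕ} (hp : p.Prime) (hp2 : p ≠ 2) (hp3 : p ≠ 3)
    [NeZero p] [NeZero (3 * p)] [NeZero (2 * p)] :
    relfinrank (modularFunctionFieldBar p) (modularFunctionFieldBar (3 * p)) = 4 ∧
      relfinrank (modularFunctionFieldBar p) (modularFunctionFieldBar (2 * p)) = 3 :=
  ⟨relfinrank_three_mul p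
      (fun h => hp3 ((Nat.prime_dvd_prime_iff_eq Nat.prime_three hp).mp h).symm),
    relfinrank_two_mul p
      (fun h => hp2 ((Nat.prime_dvd_prime_iff_eq Nat.prime_two hp).mp h).symm)⟩

end Fermat.Agent.GZ.Deg
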